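/-
S44, block X2 NP (owner helper93).  General lemmas on `K_∞` (classes `≡ 1` at the Gauss valuation),
on top of project C1.

* `isKinf_of_redS_pow`  : a Kummer unit whose reduction is `const * y ^ n`, `y` the reduction of a
                          function of the same level, has its class in `K_∞`;
* `isKinf_of_rho_frob`  : `K_∞` is stable under the inverse of a Frobenius lift;
* `isKinf_wW_of_new`    : `x ∈ K_∞`, `α_* x = 0`  ⇒  `w x ∈ K_∞`;
* `isKinf_of_eigen`     : an eigenvector of an inertia element with eigenvalue `≠ 1` lies in `K_∞`.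
-/
import Fermat.Agent.C1.Approx
import Fermat.Agent.C1.FrobNorm
import Fermat.Agent.C1.Inertia
import Fermat.Agent.Lib.Frobenius

set_option autoImplicit false

noncomputable section

namespace Fermat.Agent.S44.X.NP

open ModularCurve AlgebraicCurve Fermat.Agent.S24 Fermat.Agent.S24.B Fermat.Agent.GAL
  Fermat.Agent.GAL.E Fermat.Agent.C1

variable {A : ValuationSubring Kbar} {p : ℕ}

theorem nsmul_congr_aux {X : Type*} [AddCommGroup X] {n a b : ℕ} (h : a ≡ b [MOD n]) (z : X)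
    (hz : n • z = 0) : a • z = b • z :=
  nsmul_eq_nsmul_iff_modEq.mpr (h.of_dvd (addOrderOf_dvd_of_nsmul_eq_zero hz))

theorem nsmul_congr {N n : ℕ} {a b : ℕ} (h : a ≡ b [MOD n]) (z : W N n) : a • z = b • z :=
  nsmul_congr_aux h z (nsmul_W z)

theorem isKinf_nsmul {N n : ℕ} {x : W N n} (hx : IsKinf A x) (j : ℕ) : IsKinf A (j • x) := by
  induction j with
  | zero =>
    have e : (0 : ℕ) • x = 0 := zero_nsmul x
    rw [e]
    exact IsKinf.zero
  | succ j ih =>
    have e : (j + 1) • x = j • x + x := succ_nsmul x j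
    rw [e]
    exact ih.add hx

theorem eigen_aux {X : Type*} [AddCommGroup X] {t m : ℕ} (x : X)
    (h : (1 + t * m) • x = t • x) : -(t • (m • x - x)) = x := by
  rw [smul_sub, smul_smul, neg_sub]
  rw [add_smul, one_smul] at h
  rw [← h]
  abel

/-- `m + t a ≡ t` is solvable in `t` when `a ≢ 1`. -/
theorem exists_fix_coeff (hp : p.Prime) (a m : ℕ) (ha : ¬ a ≡ 1 [MOD p]) :
    ∃ t : ℕ, m + t * a ≡ t [MOD p] := by
  have : Fact p.Prime := ⟨hp⟩
  have h1 : (1 - (a : ZMod p)) ≠ 0 := by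
    intro h0
    apply ha
    rw [← ZMod.natCast_eq_natCast_iff, Nat.cast_one]
    exact (sub_eq_zero.mp h0).symm
  obtain ⟨t, ht⟩ := ZMod.natCast_zmod_surjective ((m : ZMod p) / (1 - (a : ZMod p)))
  refine ⟨t, ?_⟩
  rw [← ZMod.natCast_eq_natCast_iff]
  push_cast
  rw [ht]
  field_simp
  ring

/-- a Kummer unit whose reduction is a constant times the `n`-th power of the reduction of a
function of the same level -/
theorem isKinf_of_redS_pow {N n : ℕ} [NeZero n] (hp : p.Prime) (hA : A.LiesOverPrime p)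
    (u : kum N n) (Y : FN N) {c c' : Kbar} {y : LaurentSeries (IsLocalRing.ResidueField A)}
    (a : IsLocalRing.ResidueField A) (hY : RedS A (Y : LaurentSeries Kbar) c' y)
    (hu : RedS A (((u : (FN N)ˣ) : FN N) : LaurentSeries Kbar) c (HahnSeries.C a * y ^ n)) :
    IsKinf A (cls u) := by
  have hY0 : Y ≠ 0 := by
    rintro rfl
    exact hY.ne_zero rfl
  let Yu : (FN N)ˣ := Units.mk0 Y hY0
  let P : kum N n := ⟨Yu ^ n, pows_le_kum _ _ ⟨Yu, rfl⟩⟩
  have hP : cls P = 0 := (cls_eq_zero_iff _).mpr ⟨Yu, rfl⟩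
  have e : cls u = cls (u * P⁻¹) := by
    rw [cls_mul, cls_inv, hP]
    abel
  rw [e]
  refine isKinf_of_redS hp hA _ (c / c' ^ n) a ?_
  have h1 := hu.div (hY.pow n)
  rw [mul_div_cancel_right₀ _ (pow_ne_zero n hY.red_ne_zero)] at h1
  have hcoe : ((((u * P⁻¹ : kum N n) : (FN N)ˣ) : FN N) : LaurentSeries Kbar) =
      (((u : (FN N)ˣ) : FN N) : LaurentSeries Kbar) / (Y : LaurentSeries Kbar) ^ n := by
    have h0 : (((u * P⁻¹ : kum N n) : (FN N)ˣ) : FN N) = ((u : (FN N)ˣ) : FN N) / Y ^ n := by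
      simp [P, Yu, div_eq_mul_inv]
    rw [h0]
    rfl
  rw [hcoe]
  exact h1

/-- `K_∞` is stable under the inverse of a Frobenius lift -/
theorem isKinf_of_rho_frob {N n : ℕ} [NeZero n] (hp : p.Prime) (hA : A.LiesOverPrime p)
    (σ : GQ) (hσ : A.IsFrobeniusAt σ p) (x : W N n) (h : IsKinf A (rho N n σ x)) :
    IsKinf A x := by
  have : Fact p.Prime := ⟨hp⟩
  have := charP_residueField A p hp hA
  obtain ⟨u', hcls, hu'⟩ := h
  let u'' : kum N n := ⟨galU N σ⁻¹ (u' : (FN N)ˣ), galU_mem_kum σ⁻¹ _ u'.2⟩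
  have e1 : cls u'' = x := by
    have h0 : cls u'' = rho N n σ⁻¹ (cls u') := (rho_cls σ⁻¹ u').symm
    rw [h0, hcls]
    have h1 : rho N n σ⁻¹ (rho N n σ x) = (rho N n σ⁻¹ * rho N n σ) x := rfl
    rw [h1, ← map_mul, inv_mul_cancel, map_one]
    rfl
  rw [← e1]
  obtain ⟨c, r, hr⟩ := exists_redS hp hA ((u'' : (FN N)ˣ) : FN N) (Units.ne_zero _)
  have h2 := hr.gal_frobenius p σ hσ
  have e2 : coeffMap (σ : Kbar →+* Kbar) ((((u'' : (FN N)ˣ) : FN N)) : LaurentSeries Kbar) =
      (((u' : (FN N)ˣ) : FN N) : LaurentSeries Kbar) := by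
    rw [← coe_galF]
    congr 1
    show galF N σ (galF N σ⁻¹ _) = _
    rw [← galF_mul, mul_inv_cancel, galF_one]
  rw [e2] at h2
  obtain ⟨b, -, hb⟩ := hu'.redS.unique h2
  rw [mul_one] at hb
  have hr0 : r = HahnSeries.C (r.coeff 0) := by
    ext k
    by_cases hk : k = 0
    · subst hk
      simp
    · have h3 := congrArg (fun z => HahnSeries.coeff z k) hb
      simp only [coeffMap_coeff, HahnSeries.C_apply, HahnSeries.coeff_single_of_ne hk] at h3
      rw [HahnSeries.C_apply, HahnSeries.coeff_single_of_ne hk]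
      exact (frobenius (IsLocalRing.ResidueField A) p).injective (by rw [h3, map_zero])
  rw [hr0] at hr
  exact isKinf_of_redS hp hA _ c _ hr

/-- `x ∈ K_∞` and `α_* x = 0` imply `w x ∈ K_∞` -/
theorem isKinf_wW_of_new {M : ℕ} [NeZero M] [NeZero p] (D : ALData M p) (hp : p.Prime)
    (hA : A.LiesOverPrime p) {n : ℕ} [NeZero n] (x : W (M * p) n) (hx : IsKinf A x)
    (hnm : D.nmW n x = 0) : IsKinf A (D.wW n x) := by
  obtain ⟨σ, hσ⟩ := Lib.Frobenius.exists_isFrobeniusAt A p hp hA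
  apply isKinf_of_rho_frob hp hA σ hσ
  have h1 := isKinf_frob D hp hA σ hσ x
  rw [hnm, map_zero] at h1
  have h2 := (h1.add hx).neg
  have e : -(0 - x - rho (M * p) n σ (D.wW n x) + x) = rho (M * p) n σ (D.wW n x) := by abel
  rwa [e] at h2

/-- an eigenvector of an inertia element with eigenvalue `≠ 1` lies in `K_∞` -/
theorem isKinf_of_eigen {N : ℕ} [NeZero p] (hp : p.Prime) (hA : A.LiesOverPrime p) (s : GQ)
    (hs : s ∈ A.inertiaSubgroupIn ℚ) (m : ℕ) (hm : ¬ m ≡ 1 [MOD p]) (x : W N p)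
    (hx : rho N p s x = m • x) : IsKinf A x := by
  have h1 := isKinf_rho_sub hp hA s hs x
  rw [hx] at h1
  obtain ⟨t, ht⟩ := exists_fix_coeff hp m 1 hm
  have h2 := (isKinf_nsmul h1 t).neg
  have e : -(t • (m • x - x)) = x := eigen_aux x (nsmul_congr ht x)
  rwa [e] at h2

end Fermat.Agent.S44.X.NP

end
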