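/-
S44, block X2 NP (owner helper93).  The two norms of `NewPair` in terms of an `ALData`.
-/
import Fermat.Agent.S44.Defs
import Fermat.Agent.C1.Mod.Main
import Fermat.Agent.C1.KumW

set_option autoImplicit false

noncomputable section

namespace Fermat.Agent.S44.X.NP

open ModularCurve AlgebraicCurve Fermat.Agent.S24 Fermat.Agent.S24.B Fermat.Agent.GAL
  Fermat.Agent.GAL.E Fermat.Agent.C1

variable {M q : ℕ} [NeZero M] [NeZero q]

/-- the norm of an `ALData` is the norm along `α` -/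
theorem nm_eq_normAlpha (D : ALData M q) (hq : q.Prime) (hqM : ¬ q ∣ M) :
    D.nm = normAlpha M q := by
  let D' : ALData M q :=
    { D with
      nm := normAlpha M q
      qExpand_nm := qExpand_normAlpha M q hq hqM D.w D.w_al D.w_be
      isKum_nm := fun n u hu => isKum_normAlpha q hu }
  exact D.nm_eq hq D'

/-- the norm along `β` is the norm along `α` after `w` -/
theorem nm_w_eq_normBeta (D : ALData M q) (hq : q.Prime) (hqM : ¬ q ∣ M) (u : FN (M * q)) :
    D.nm (D.w u) = S44.normBeta M q u := by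
  rw [nm_eq_normAlpha D hq hqM]
  have hww := D.w_w hq
  let e0 : FN (M * q) ≃+* FN (M * q) :=
    RingEquiv.ofRingHom (D.w : FN (M * q) →+* FN (M * q)) (D.w : FN (M * q) →+* FN (M * q))
      (RingHom.ext hww) (RingHom.ext hww)
  let e : @AlgEquiv (FN M) (FN (M * q)) (FN (M * q)) _ _ _ (S44.algBeta M q) (algAlpha M q) :=
    @AlgEquiv.ofRingEquiv (FN M) (FN (M * q)) (FN (M * q)) _ _ _ (S44.algBeta M q) (algAlpha M q)
      e0 (fun x => D.w_be x)
  have key := @Algebra.norm_eq_of_algEquiv (FN M) (FN (M * q)) (FN (M * q)) _ _ (S44.algBeta M q) _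
    (algAlpha M q) e u
  unfold normAlpha S44.normBeta
  exact key

theorem nmW_cls_eq_zero (D : ALData M q) {n : ℕ} (u : kum (M * q) n) (v : FN M)
    (h : D.nm ((u : (FN (M * q))ˣ) : FN (M * q)) = v ^ n) : D.nmW n (cls u) = 0 := by
  have e : D.nmW n (cls u) =
      cls ⟨Units.map D.nm (u : (FN (M * q))ˣ), D.isKum_nm n _ u.2⟩ := rfl
  rw [e, cls_eq_zero_iff]
  exact mem_pows_of_eq_pow h

theorem nmW_wW_cls_eq_zero (D : ALData M q) {n : ℕ} (u : kum (M * q) n) (v : FN M)
    (h : D.nm (D.w ((u : (FN (M * q))ˣ) : FN (M * q))) = v ^ n) :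
    D.nmW n (D.wW n (cls u)) = 0 := by
  have e : D.wW n (cls u) =
      cls ⟨Units.map ((D.w : FN (M * q) →+* FN (M * q)) : FN (M * q) →* FN (M * q))
        (u : (FN (M * q))ˣ), D.isKum_w n _ u.2⟩ := rfl
  rw [e]
  exact nmW_cls_eq_zero D _ v h

end Fermat.Agent.S44.X.NP

end
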