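/-
S44, block X2 NP (owner helper93).  **NodeNP** from the S33 node `NodeNew`.

If the reduction of `u₁` were a `p`-th power in `k(X₀(M'))`, then `[u₁] ∈ K_∞`; newness gives
`w [u₁] ∈ K_∞`; `[u₀]` and `w [u₀]` are eigenvectors of an inertia element `s` with eigenvalue
`χ(s) ≠ 1`, hence in `K_∞`.  So the whole plane is toric; `x = [u₁] + t [u₀]` is fixed by `s` for a
suitable `t`, and `NodeNew` gives `x = 0`, contradicting the independence.
-/
import Fermat.Agent.S44.X.Top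
import Fermat.Agent.S44.X.NP.Kinf
import Fermat.Agent.S44.X.NP.Norm
import Fermat.Agent.S44.X.Red.ResField
import Fermat.Agent.S33.Mid.Nodes
import Fermat.Agent.S33.InertiaCyclo

set_option autoImplicit false

noncomputable section

namespace Fermat.Agent.S44.X.NP

open ModularCurve AlgebraicCurve Fermat.Agent.S24 Fermat.Agent.S24.B Fermat.Agent.GAL
  Fermat.Agent.GAL.E Fermat.Agent.C1 Fermat.Agent.S28.Export

variable {A : ValuationSubring Qb}

/-- `IsRed` as a `RedS` -/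
theorem redS_of_isRed {N : ℕ} {u : FN N} {ubar : LaurentSeries (kA A)} (h : IsRed A u ubar) :
    ∃ c : Kbar, RedS A (u : LaurentSeries Kbar) c ubar := by
  obtain ⟨c, x, y, hx, hy, hc, hrx, hry, hu, hbar⟩ := h
  refine ⟨c, ?_⟩
  have h1 := RedField.redS_of_scaling hx hy hc hrx hry hu
  rwa [← hbar, mul_div_cancel_right₀ _ hry] at h1

/-- every nonzero element of `k(X₀(M))` is the reduction of a function of level `N`, `M ∣ N` -/
theorem exists_lift {M N : ℕ} (h : M ∣ N) (y : Fk A M) (hy : y ≠ 0) :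
    ∃ Y : FN N, RedS A (Y : LaurentSeries Kbar) 1 (y : LaurentSeries (kA A)) := by
  obtain ⟨f, hf, G₁, G₂, h2, e1, e2⟩ := full_le_resField (A := A) h y.2
  have hy' : (y : LaurentSeries (kA A)) ≠ 0 := fun h0 => hy (Subtype.ext h0)
  refine ⟨⟨f, hf⟩, one_ne_zero, G₁, G₂, ?_, h2, ?_, e2⟩
  · intro h0
    rw [show rho A G₁ = 0 from h0] at e2
    exact (mul_ne_zero hy' h2) e2
  · rw [map_one, one_mul]
    exact e1

theorem map_eq_zero_aux {X Y : Type*} [AddCommGroup X] [AddCommGroup Y] (f : X →+ Y) (x₁ x₀ : X)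
    (t : ℕ) (h1 : f x₁ = 0) (h0 : f x₀ = 0) : f (x₁ + t • x₀) = 0 := by
  rw [map_add, map_nsmul, h1, h0, smul_zero, add_zero]

theorem fix_aux {X : Type*} [AddCommGroup X] (f : X →+ X) (x₁ x₀ : X) (t a m : ℕ)
    (g1 : f x₁ = x₁ + m • x₀) (g0 : f x₀ = a • x₀) (h : (m + t * a) • x₀ = t • x₀) :
    f (x₁ + t • x₀) = x₁ + t • x₀ := by
  rw [map_add, map_nsmul, g1, g0, add_assoc, smul_smul, ← add_smul, h]

theorem indep_aux {X : Type*} [AddCommGroup X] (x₁ x₀ : X) (t : ℕ) (h : x₁ + t • x₀ = 0) :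
    t • x₀ + 1 • x₁ = 0 := by
  rw [one_smul, add_comm]
  exact h

theorem np_of_nodeNew (P : FreyPackage) (M' : ℕ) [NeZero M'] (hsq : Squarefree (M' * P.p))
    (hNew : S33.Mid.NodeNew M' P.p) (A : ValuationSubring Qb) (hA : A.LiesOverPrime P.p)
    (W : WeierstrassCurve ℤ) (u₀ u₁ : E.kum (M' * P.p) P.p) (hN : NewPair P M' A W u₀ u₁)
    (ubar : Fk A M') (hu : IsRed A (fn u₁) (ubar : LaurentSeries (kA A))) :
    ¬ ∃ y : Fk A M', ubar = y ^ P.p := by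
  rintro ⟨y, rfl⟩
  have hp : P.p.Prime := P.pp
  have hpM : ¬ P.p ∣ M' := by
    rintro ⟨c, rfl⟩
    exact Nat.squarefree_iff_prime_squarefree.mp hsq P.p P.pp ⟨c, by ring⟩
  obtain ⟨D⟩ := nonempty_alData M' P.p hp hpM
  obtain ⟨s, hs, a, ha, ha1⟩ := S33.inertiaCyclo hp (by have := P.hp5; omega) A hA
  -- `[u₁] ∈ K_∞`
  obtain ⟨c, hc⟩ := redS_of_isRed hu
  have hy0 : y ≠ 0 := by
    rintro rfl
    apply hc.red_ne_zero
    rw [zero_pow hp.ne_zero]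
    rfl
  obtain ⟨Y, hY⟩ := exists_lift (A := A) (dvd_mul_right M' P.p) y hy0
  have k1 : IsKinf A (cls u₁) := by
    refine isKinf_of_redS_pow hp hA u₁ Y 1 hY (c := c) ?_
    rw [map_one, one_mul]
    exact hc
  -- the norms
  obtain ⟨v₁, hv₁⟩ := hN.newα₁
  obtain ⟨v₁', hv₁'⟩ := hN.newβ₁
  obtain ⟨v₀, hv₀⟩ := hN.newα₀
  obtain ⟨v₀', hv₀'⟩ := hN.newβ₀
  have n1 : D.nmW P.p (cls u₁) = 0 :=
    nmW_cls_eq_zero D u₁ v₁ (by rw [nm_eq_normAlpha D hp hpM]; exact hv₁)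
  have n0 : D.nmW P.p (cls u₀) = 0 :=
    nmW_cls_eq_zero D u₀ v₀ (by rw [nm_eq_normAlpha D hp hpM]; exact hv₀)
  have n1' : D.nmW P.p (D.wW P.p (cls u₁)) = 0 :=
    nmW_wW_cls_eq_zero D u₁ v₁' (by rw [nm_w_eq_normBeta D hp hpM]; exact hv₁')
  have n0' : D.nmW P.p (D.wW P.p (cls u₀)) = 0 :=
    nmW_wW_cls_eq_zero D u₀ v₀' (by rw [nm_w_eq_normBeta D hp hpM]; exact hv₀')
  have k1' : IsKinf A (D.wW P.p (cls u₁)) := isKinf_wW_of_new D hp hA _ k1 n1
  -- `[u₀]`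
  have g0 : rho (M' * P.p) P.p s (cls u₀) = a • cls u₀ :=
    hN.gal₀ s hs a fun ζ hζ => ha ζ (by rw [pow_one]; exact hζ)
  have k0 : IsKinf A (cls u₀) := isKinf_of_eigen hp hA s hs a ha1 _ g0
  have k0' : IsKinf A (D.wW P.p (cls u₀)) :=
    isKinf_of_eigen hp hA s hs a ha1 _ (by rw [← D.wW_rho _ hp, g0, map_nsmul])
  obtain ⟨m₁, g1⟩ := hN.gal₁ s hs
  obtain ⟨t, ht⟩ := exists_fix_coeff hp a m₁ ha1
  have hx0 : cls u₁ + t • cls u₀ = 0 := by
    refine hNew D A hA _ (isTor_of_isKinf D hp hA (k1.add (isKinf_nsmul k0 t)) ?_) ?_ ?_ s hs a ha ha1 ?_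
    · rw [map_add, map_nsmul]
      exact k1'.add (isKinf_nsmul k0' t)
    · exact map_eq_zero_aux (X := E.W (M' * P.p) P.p) (Y := E.W M' P.p) (D.nmW P.p)
        (cls u₁) (cls u₀) t n1 n0
    · exact map_eq_zero_aux (X := E.W (M' * P.p) P.p) (Y := E.W M' P.p)
        ((D.nmW P.p).comp (D.wW P.p)) (cls u₁) (cls u₀) t n1' n0'
    · exact fix_aux (X := E.W (M' * P.p) P.p) (rho (M' * P.p) P.p s) (cls u₁) (cls u₀) t a m₁ g1 g0
        (nsmul_congr ht _)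
  have h2 := hN.indep t 1 (indep_aux (X := E.W (M' * P.p) P.p) (cls u₁) (cls u₀) t hx0)
  exact hp.one_lt.ne' (Nat.dvd_one.mp h2.2)

/-- **NodeNP**, from `NodeNew` at all the relevant levels. -/
theorem nodeNP_of (hNew : ∀ (P : FreyPackage) (M' : ℕ) [NeZero M'], Squarefree (M' * P.p) →
    S33.Mid.NodeNew M' P.p) : NodeNP := by
  intro P M' _ hsq A hA W u₀ u₁ hN ubar hu
  exact np_of_nodeNew P M' hsq (hNew P M' hsq) A hA W u₀ u₁ hN ubar hu

end Fermat.Agent.S44.X.NP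

end
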